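/-
S55 / 10c-PROFIN-LOCAL, field/group half (helper80).

`q` a prime, `Ω = PadicAlgCl q`, `ι = padicEmbedding q : ℚ̄ → Ω`, `A = padicPlace q`,
`r = localGaloisToGlobal q : Gal(Ω/ℚ_q) → Gal(ℚ̄/ℚ)`.

* `localLevel q F = ℚ_q(ι F)`, `mem_fixingSubgroup_localLevel_iff`;
* `norm_map_eq_of_unitBall` : a ring automorphism preserving the unit ball of `‖ι ·‖` preserves `‖ι ·‖`;
* `exists_local_lift` : an automorphism of `F ≤ ℚ̄` in the decomposition group of the place of `F` under
  `A` is induced by an element of `Gal(Ω/ℚ_q)`;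
* `range_localGaloisToGlobal`, `range_restrict` : the image of the local Galois group is the
  decomposition group (in `Gal(ℚ̄/ℚ)` and at every normal level `F`).
No sorry.
-/
import Mathlib
import Fermat.Prelude.Def_GaloisRep_CompletionBridge

set_option autoImplicit false

open scoped NNReal Pointwise

noncomputable section

namespace Fermat.Agent.S55.ProfinLoc80

variable (q : ℕ) [Fact q.Prime]

/-! ### the norm of `q` -/

theorem norm_natCast_q : ‖(q : PadicAlgCl q)‖ = (q : ℝ)⁻¹ := by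
  rw [← map_natCast (algebraMap ℚ_[q] (PadicAlgCl q)), PadicAlgCl.norm_extends]
  exact Padic.norm_p

theorem one_lt_q : (1 : ℝ) < q := by
  exact_mod_cast (Fact.out : q.Prime).one_lt

/-! ### (E2) unit ball preserved ⇒ norm preserved -/

theorem not_norm_map_lt {E : Type*} [Field E] (j : E →+* PadicAlgCl q) (σ : E ≃+* E)
    (h : ∀ x, ‖j (σ x)‖ ≤ 1 ↔ ‖j x‖ ≤ 1) (x : E) : ¬ ‖j (σ x)‖ < ‖j x‖ := by
  intro hlt
  have hq1 := one_lt_q q
  have hq0 : (0 : ℝ) < q := by linarith
  have hx0 : x ≠ 0 := by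
    rintro rfl
    simp at hlt
  have hσx0 : σ x ≠ 0 := (map_ne_zero_iff σ σ.injective).mpr hx0
  set s := ‖j (σ x)‖ with hs
  set t := ‖j x‖ with ht
  have hs0 : 0 < s := norm_pos_iff.mpr ((map_ne_zero j).mpr hσx0)
  have hts : 1 < t / s := (one_lt_div hs0).mpr hlt
  obtain ⟨b, hb⟩ := pow_unbounded_of_one_lt (q : ℝ) hts
  obtain ⟨n, hn1, hn2⟩ := exists_mem_Ico_zpow (pow_pos hs0 b) hq1
  -- the test element
  set u : E := x ^ b * ((q : E) ^ (n + 1)) with hu
  have hjq : ‖j (q : E)‖ = (q : ℝ)⁻¹ := by rw [map_natCast]; exact norm_natCast_q q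
  have hσq : σ (q : E) = (q : E) := map_natCast σ q
  have h1 : ‖j (σ u)‖ = s ^ b * ((q : ℝ)⁻¹) ^ (n + 1) := by
    rw [hu, map_mul, map_pow, map_zpow₀, hσq, map_mul, map_pow, map_zpow₀, norm_mul, norm_pow,
      norm_zpow, hjq]
  have h2 : ‖j u‖ = t ^ b * ((q : ℝ)⁻¹) ^ (n + 1) := by
    rw [hu, map_mul, map_pow, map_zpow₀, norm_mul, norm_pow, norm_zpow, hjq]
  have hqz : (0 : ℝ) < (q : ℝ) ^ (n + 1) := zpow_pos hq0 _
  have h3 : ‖j (σ u)‖ ≤ 1 := by
    rw [h1, inv_zpow, ← div_eq_mul_inv, div_le_one hqz]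
    exact hn2.le
  have h4 : ‖j u‖ ≤ 1 := (h u).mp h3
  rw [h2, inv_zpow, ← div_eq_mul_inv, div_le_one hqz] at h4
  -- `t ^ b ≤ q ^ (n+1) = q * q ^ n ≤ q * s ^ b < (t/s)^b * s^b = t^b`
  have h5 : (q : ℝ) ^ (n + 1) = q * (q : ℝ) ^ n := by
    rw [zpow_add_one₀ hq0.ne', mul_comm]
  have h6 : (t / s) ^ b * s ^ b = t ^ b := by
    rw [← mul_pow, div_mul_cancel₀ _ hs0.ne']
  have h7 : (q : ℝ) * (q : ℝ) ^ n ≤ q * s ^ b := mul_le_mul_of_nonneg_left hn1 hq0.le
  have h8 : (q : ℝ) * s ^ b < (t / s) ^ b * s ^ b :=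
    mul_lt_mul_of_pos_right hb (pow_pos hs0 b)
  linarith

/-- A ring automorphism `σ` of `E` preserving the unit ball of the seminorm `‖j ·‖` preserves
`‖j ·‖`. -/
theorem norm_map_eq_of_unitBall {E : Type*} [Field E] (j : E →+* PadicAlgCl q) (σ : E ≃+* E)
    (h : ∀ x, ‖j (σ x)‖ ≤ 1 ↔ ‖j x‖ ≤ 1) (x : E) : ‖j (σ x)‖ = ‖j x‖ := by
  refine le_antisymm ?_ (not_lt.mp (not_norm_map_lt q j σ h x))
  have h' : ∀ y, ‖j (σ.symm y)‖ ≤ 1 ↔ ‖j y‖ ≤ 1 := fun y => by
    rw [← h (σ.symm y), RingEquiv.apply_symm_apply]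
  have := not_lt.mp (not_norm_map_lt q j σ.symm h' (σ x))
  rwa [RingEquiv.symm_apply_apply] at this

/-! ### (E1) the local level of a global field -/

/-- `ℚ_q(ι F)`: the local field generated by the image of `F`. -/
def localLevel (F : IntermediateField ℚ (AlgebraicClosure ℚ)) :
    IntermediateField ℚ_[q] (PadicAlgCl q) :=
  IntermediateField.adjoin ℚ_[q] (padicEmbedding q '' (F : Set (AlgebraicClosure ℚ)))

theorem padicEmbedding_mem_localLevel (F : IntermediateField ℚ (AlgebraicClosure ℚ)) (x : F) :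
    padicEmbedding q (x : AlgebraicClosure ℚ) ∈ localLevel q F :=
  IntermediateField.subset_adjoin _ _ ⟨x, x.2, rfl⟩

theorem localLevel_mono {F F' : IntermediateField ℚ (AlgebraicClosure ℚ)} (h : F ≤ F') :
    localLevel q F ≤ localLevel q F' :=
  IntermediateField.adjoin.mono _ _ _ (Set.image_mono h)

theorem padicEmbedding_injective : Function.Injective (padicEmbedding q) :=
  (padicEmbedding q).toRingHom.injective

theorem mem_fixingSubgroup_localLevel_iff (F : IntermediateField ℚ (AlgebraicClosure ℚ))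
    (τ : PadicAlgCl q ≃ₐ[ℚ_[q]] PadicAlgCl q) :
    τ ∈ (localLevel q F).fixingSubgroup ↔ localGaloisToGlobal q τ ∈ F.fixingSubgroup := by
  rw [IntermediateField.mem_fixingSubgroup_iff, IntermediateField.mem_fixingSubgroup_iff]
  constructor
  · intro h x hx
    apply padicEmbedding_injective q
    rw [padicEmbedding_localGaloisToGlobal]
    exact h _ (padicEmbedding_mem_localLevel q F ⟨x, hx⟩)
  · intro h y hy
    induction hy using IntermediateField.adjoin_induction with
    | mem y hy =>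
      obtain ⟨x, hx, rfl⟩ := hy
      rw [← padicEmbedding_localGaloisToGlobal, h x hx]
    | algebraMap c => exact τ.commutes c
    | add y z _ _ hy hz => rw [map_add, hy, hz]
    | inv y _ hy => rw [map_inv₀, hy]
    | mul y z _ _ hy hz => rw [map_mul, hy, hz]

/-! ### density of `ι F` in `ℚ_q(ι F)` -/

theorem localLevel_toSubmodule (F : IntermediateField ℚ (AlgebraicClosure ℚ)) :
    Subalgebra.toSubmodule (localLevel q F).toSubalgebra =
      Submodule.span ℚ_[q] (padicEmbedding q '' (F : Set (AlgebraicClosure ℚ))) := by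
  rw [localLevel, IntermediateField.adjoin_toSubalgebra, Algebra.adjoin_eq_span]
  congr 1
  have : padicEmbedding q '' (F : Set (AlgebraicClosure ℚ)) =
      ((F.toSubalgebra.toSubsemiring.toSubmonoid.map
        (padicEmbedding q : AlgebraicClosure ℚ →* PadicAlgCl q) : Submonoid (PadicAlgCl q)) :
          Set (PadicAlgCl q)) := by
    ext y
    simp
  rw [this, Submonoid.closure_eq]

theorem exists_norm_sub_lt (F : IntermediateField ℚ (AlgebraicClosure ℚ)) {y : PadicAlgCl q}
    (hy : y ∈ localLevel q F) {ε : ℝ} (hε : 0 < ε) :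
    ∃ x : F, ‖y - padicEmbedding q (x : AlgebraicClosure ℚ)‖ < ε := by
  have hy' : y ∈ Submodule.span ℚ_[q] (padicEmbedding q '' (F : Set (AlgebraicClosure ℚ))) := by
    rw [← localLevel_toSubmodule]; exact hy
  clear hy
  induction hy' using Submodule.span_induction generalizing ε with
  | mem y hy =>
    obtain ⟨x, hx, rfl⟩ := hy
    exact ⟨⟨x, hx⟩, by simpa using hε⟩
  | zero => exact ⟨0, by simpa using hε⟩
  | add y z _ _ hy hz =>
    obtain ⟨x, hx⟩ := hy (half_pos hε)
    obtain ⟨x', hx'⟩ := hz (half_pos hε)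
    refine ⟨x + x', ?_⟩
    have : y + z - padicEmbedding q ((x + x' : F) : AlgebraicClosure ℚ) =
        (y - padicEmbedding q (x : AlgebraicClosure ℚ)) +
          (z - padicEmbedding q (x' : AlgebraicClosure ℚ)) := by
      push_cast
      rw [map_add]; ring
    rw [this]
    exact (norm_add_le _ _).trans_lt (by linarith)
  | smul c y _ hy =>
    -- approximate `y` by `ι x` and `c` by a rational `a`
    have hc1 : 0 < ‖c‖ + 1 := by positivity
    obtain ⟨x, hx⟩ := hy (div_pos (half_pos hε) hc1)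
    have hx1 : 0 < ‖padicEmbedding q (x : AlgebraicClosure ℚ)‖ + 1 := by positivity
    obtain ⟨a, ha⟩ := Metric.denseRange_iff.mp (Padic.denseRange_ratCast q) c
      (ε / 2 / (‖padicEmbedding q (x : AlgebraicClosure ℚ)‖ + 1)) (div_pos (half_pos hε) hx1)
    refine ⟨(a : ℚ) • x, ?_⟩
    have hax : padicEmbedding q (((a : ℚ) • x : F) : AlgebraicClosure ℚ) =
        ((a : ℚ_[q])) • padicEmbedding q (x : AlgebraicClosure ℚ) := by
      rw [IntermediateField.coe_smul, Algebra.smul_def, Algebra.smul_def, map_mul,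
        eq_ratCast, map_ratCast, ← map_ratCast (algebraMap ℚ_[q] (PadicAlgCl q))]
    have : c • y - padicEmbedding q (((a : ℚ) • x : F) : AlgebraicClosure ℚ) =
        c • (y - padicEmbedding q (x : AlgebraicClosure ℚ)) +
          (c - (a : ℚ_[q])) • padicEmbedding q (x : AlgebraicClosure ℚ) := by
      rw [hax, smul_sub, sub_smul]; abel
    rw [this]
    refine (norm_add_le _ _).trans_lt ?_
    rw [norm_smul, norm_smul]
    have h1 : ‖c‖ * ‖y - padicEmbedding q (x : AlgebraicClosure ℚ)‖ < ε / 2 := by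
      calc ‖c‖ * ‖y - padicEmbedding q (x : AlgebraicClosure ℚ)‖
          ≤ (‖c‖ + 1) * ‖y - padicEmbedding q (x : AlgebraicClosure ℚ)‖ := by
            apply mul_le_mul_of_nonneg_right _ (norm_nonneg _); linarith
        _ < (‖c‖ + 1) * (ε / 2 / (‖c‖ + 1)) := mul_lt_mul_of_pos_left hx hc1
        _ = ε / 2 := by field_simp
    have h2 : ‖c - (a : ℚ_[q])‖ * ‖padicEmbedding q (x : AlgebraicClosure ℚ)‖ < ε / 2 := by
      rw [dist_eq_norm] at ha
      calc ‖c - (a : ℚ_[q])‖ * ‖padicEmbedding q (x : AlgebraicClosure ℚ)‖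
          ≤ ‖c - (a : ℚ_[q])‖ * (‖padicEmbedding q (x : AlgebraicClosure ℚ)‖ + 1) := by
            apply mul_le_mul_of_nonneg_left _ (norm_nonneg _); linarith
        _ < (ε / 2 / (‖padicEmbedding q (x : AlgebraicClosure ℚ)‖ + 1)) *
              (‖padicEmbedding q (x : AlgebraicClosure ℚ)‖ + 1) :=
            mul_lt_mul_of_pos_right ha hx1
        _ = ε / 2 := by field_simp
    linarith

/-! ### algebraic elements of `ℂ_[q]` lie in `PadicAlgCl q` -/

theorem mem_range_of_isIntegral {z : ℂ_[q]} (hz : IsIntegral ℚ_[q] z) :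
    z ∈ (algebraMap (PadicAlgCl q) ℂ_[q]).range := by
  have hz' : IsIntegral (PadicAlgCl q) z := hz.tower_top
  exact minpoly.mem_range_of_degree_eq_one (PadicAlgCl q) z
    (IsAlgClosed.degree_eq_one_of_irreducible (PadicAlgCl q) (minpoly.irreducible hz'))

/-! ### (E3) the key extension lemma -/

section Key

variable (F : IntermediateField ℚ (AlgebraicClosure ℚ)) (σ : F ≃ₐ[ℚ] F)

/-- the inclusion `F → ℚ_q(ι F)` -/
def toLevel : F →+* localLevel q F :=
  ((padicEmbedding q).toRingHom.comp (algebraMap F (AlgebraicClosure ℚ))).codRestrict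
    (localLevel q F) (fun x => padicEmbedding_mem_localLevel q F x)

theorem coe_toLevel (x : F) :
    ((toLevel q F x : localLevel q F) : PadicAlgCl q) = padicEmbedding q (x : AlgebraicClosure ℚ) :=
  rfl

/-- `x ↦ ι (σ x)`, with values in `ℂ_[q]` -/
def twisted : F →+* ℂ_[q] :=
  (algebraMap (PadicAlgCl q) ℂ_[q]).comp
    ((padicEmbedding q).toRingHom.comp ((algebraMap F (AlgebraicClosure ℚ)).comp
      (σ : F →+* F)))

theorem twisted_apply (x : F) :
    twisted q F σ x = ((padicEmbedding q ((σ x : F) : AlgebraicClosure ℚ) : PadicAlgCl q) : ℂ_[q]) :=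
  rfl

variable (hσ : ∀ x : F, ‖padicEmbedding q ((σ x : F) : AlgebraicClosure ℚ)‖ =
  ‖padicEmbedding q (x : AlgebraicClosure ℚ)‖)

include hσ in
theorem exists_extension :
    ∃ T : localLevel q F →ₐ[ℚ_[q]] PadicAlgCl q,
      ∀ x : F, T (toLevel q F x) = padicEmbedding q ((σ x : F) : AlgebraicClosure ℚ) := by
  classical
  let _ : PseudoMetricSpace F := PseudoMetricSpace.induced (toLevel q F) inferInstance
  have ue : IsUniformInducing (toLevel q F) := ⟨rfl⟩
  have dr : DenseRange (toLevel q F) := by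
    rw [Metric.denseRange_iff]
    intro y ε hε
    obtain ⟨x, hx⟩ := exists_norm_sub_lt q F y.2 hε
    exact ⟨x, by rw [dist_eq_norm]; exact hx⟩
  have hiso : Isometry (twisted q F σ) := by
    refine Isometry.of_dist_eq fun x y => ?_
    have h1 : dist x y = dist (toLevel q F x) (toLevel q F y) := rfl
    rw [h1, dist_eq_norm, dist_eq_norm, ← map_sub, ← map_sub, twisted_apply,
      PadicComplex.norm_extends, hσ]
    rfl
  have hf : UniformContinuous (twisted q F σ) := hiso.uniformContinuous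
  set T₀ : localLevel q F →+* ℂ_[q] := IsDenseInducing.extendRingHom ue dr hf with hT₀
  have hT₀c : Continuous T₀ := (uniformContinuous_uniformly_extend ue dr hf).continuous
  have hT₀x : ∀ x : F, T₀ (toLevel q F x) = twisted q F σ x := fun x =>
    IsDenseInducing.extend_eq (ue.isDenseInducing dr) hf.continuous x
  -- `T₀` fixes `ℚ_q`
  have halgc : Continuous (algebraMap ℚ_[q] (localLevel q F)) := by
    have : Isometry (algebraMap ℚ_[q] (localLevel q F)) :=
      AddMonoidHomClass.isometry_of_norm _ fun c => PadicAlgCl.norm_extends q c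
    exact this.continuous
  have hfix : ∀ c : ℚ_[q], T₀ (algebraMap ℚ_[q] (localLevel q F) c) = algebraMap ℚ_[q] ℂ_[q] c := by
    have heq : (T₀ ∘ algebraMap ℚ_[q] (localLevel q F)) = algebraMap ℚ_[q] ℂ_[q] := by
      refine DenseRange.equalizer (Padic.denseRange_ratCast q) (hT₀c.comp halgc)
        (continuous_algebraMap ℚ_[q] ℂ_[q]) (funext fun a => ?_)
      have h1 : algebraMap ℚ_[q] (localLevel q F) (a : ℚ_[q]) = toLevel q F (a : F) := by
        rw [map_ratCast, map_ratCast]
      simp only [Function.comp_apply]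
      rw [h1, hT₀x, twisted_apply, map_ratCast, map_ratCast]
      have h3 : (((a : F) : AlgebraicClosure ℚ)) = (a : AlgebraicClosure ℚ) :=
        map_ratCast (algebraMap F (AlgebraicClosure ℚ)) a
      rw [h3, map_ratCast]
      exact (map_ratCast (algebraMap (PadicAlgCl q) ℂ_[q]) a)
    exact fun c => congrFun heq c
  let T₁ : localLevel q F →ₐ[ℚ_[q]] ℂ_[q] := { T₀ with commutes' := hfix }
  have hT₁ : ∀ y, T₁ y = T₀ y := fun y => rfl
  -- land in `PadicAlgCl q`
  have hmem : ∀ y : localLevel q F,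
      T₁ y ∈ (IsScalarTower.toAlgHom ℚ_[q] (PadicAlgCl q) ℂ_[q]).range := by
    intro y
    have hy : IsIntegral ℚ_[q] y := Algebra.IsIntegral.isIntegral y
    obtain ⟨w, hw⟩ := mem_range_of_isIntegral q (hy.map T₁)
    exact ⟨w, hw⟩
  let e : PadicAlgCl q ≃ₐ[ℚ_[q]] (IsScalarTower.toAlgHom ℚ_[q] (PadicAlgCl q) ℂ_[q]).range :=
    AlgEquiv.ofInjective _ (algebraMap (PadicAlgCl q) ℂ_[q]).injective
  refine ⟨(e.symm : _ →ₐ[ℚ_[q]] PadicAlgCl q).comp (T₁.codRestrict _ hmem), fun x => ?_⟩
  apply (algebraMap (PadicAlgCl q) ℂ_[q]).injective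
  have h2 : ∀ s : (IsScalarTower.toAlgHom ℚ_[q] (PadicAlgCl q) ℂ_[q]).range,
      algebraMap (PadicAlgCl q) ℂ_[q] (e.symm s) = (s : ℂ_[q]) := by
    intro s
    have := congrArg Subtype.val (e.apply_symm_apply s)
    exact this
  show algebraMap (PadicAlgCl q) ℂ_[q] (e.symm ((T₁.codRestrict _ hmem) (toLevel q F x))) = _
  rw [h2, AlgHom.coe_codRestrict, hT₁, hT₀x, twisted_apply]
  rfl

include hσ in
/-- **Key lemma.**  An automorphism `σ` of `F ≤ ℚ̄` preserving the `q`-adic norm `‖ι ·‖` is induced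
by an element of `Gal(Ω/ℚ_q)`. -/
theorem exists_local_lift_of_norm :
    ∃ τ : PadicAlgCl q ≃ₐ[ℚ_[q]] PadicAlgCl q,
      ∀ x : F, τ (padicEmbedding q (x : AlgebraicClosure ℚ)) =
        padicEmbedding q ((σ x : F) : AlgebraicClosure ℚ) := by
  obtain ⟨T, hT⟩ := exists_extension q F σ hσ
  obtain ⟨φ, hφ⟩ := IntermediateField.exists_algHom_of_splits
    (fun s : PadicAlgCl q => ⟨Algebra.IsIntegral.isIntegral (R := ℚ_[q]) s,
      IsAlgClosed.splits _⟩) T
  have hbij : Function.Bijective φ := Algebra.IsAlgebraic.algHom_bijective φ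
  refine ⟨AlgEquiv.ofBijective φ hbij, fun x => ?_⟩
  have h1 := congrArg (fun f : localLevel q F →ₐ[ℚ_[q]] PadicAlgCl q => f (toLevel q F x)) hφ
  simp only [AlgHom.comp_apply] at h1
  rw [hT] at h1
  exact h1

end Key

/-! ### decomposition groups preserve the norm -/

theorem nnnorm_le_one_iff_norm (y : PadicAlgCl q) : ‖y‖₊ ≤ 1 ↔ ‖y‖ ≤ 1 := by
  rw [← NNReal.coe_le_coe]
  rfl

theorem norm_map_eq_of_mem_decompositionSubgroup_top
    (g : AlgebraicClosure ℚ ≃ₐ[ℚ] AlgebraicClosure ℚ)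
    (hg : g ∈ (padicPlace q).decompositionSubgroup ℚ) (x : AlgebraicClosure ℚ) :
    ‖padicEmbedding q (g x)‖ = ‖padicEmbedding q x‖ := by
  have hinv : g⁻¹ ∈ (padicPlace q).decompositionSubgroup ℚ := inv_mem hg
  have key : ∀ y : AlgebraicClosure ℚ,
      ‖(padicEmbedding q).toRingHom (g.toRingEquiv y)‖ ≤ 1 ↔
        ‖(padicEmbedding q).toRingHom y‖ ≤ 1 := by
    intro y
    have h := MulAction.mem_stabilizer_iff.mp hinv
    have h2 : y ∈ g⁻¹ • padicPlace q ↔ y ∈ padicPlace q := by rw [h]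
    rw [ValuationSubring.mem_pointwise_smul_iff_inv_smul_mem, inv_inv, AlgEquiv.smul_def,
      mem_padicPlace_iff, mem_padicPlace_iff, nnnorm_le_one_iff_norm, nnnorm_le_one_iff_norm] at h2
    exact h2
  exact norm_map_eq_of_unitBall q (padicEmbedding q).toRingHom g.toRingEquiv key x

theorem norm_map_eq_of_mem_decompositionSubgroup
    (F : IntermediateField ℚ (AlgebraicClosure ℚ)) (σ : F ≃ₐ[ℚ] F)
    (hσ : σ ∈ ((padicPlace q).comap (algebraMap F (AlgebraicClosure ℚ))).decompositionSubgroup ℚ)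
    (x : F) :
    ‖padicEmbedding q ((σ x : F) : AlgebraicClosure ℚ)‖ =
      ‖padicEmbedding q (x : AlgebraicClosure ℚ)‖ := by
  have hinv : σ⁻¹ ∈
      ((padicPlace q).comap (algebraMap F (AlgebraicClosure ℚ))).decompositionSubgroup ℚ :=
    inv_mem hσ
  have key : ∀ y : F,
      ‖((padicEmbedding q).toRingHom.comp (algebraMap F (AlgebraicClosure ℚ)))
          (σ.toRingEquiv y)‖ ≤ 1 ↔
        ‖((padicEmbedding q).toRingHom.comp (algebraMap F (AlgebraicClosure ℚ))) y‖ ≤ 1 := by
    intro y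
    have h := MulAction.mem_stabilizer_iff.mp hinv
    have h2 : y ∈ σ⁻¹ • (padicPlace q).comap (algebraMap F (AlgebraicClosure ℚ)) ↔
        y ∈ (padicPlace q).comap (algebraMap F (AlgebraicClosure ℚ)) := by rw [h]
    rw [ValuationSubring.mem_pointwise_smul_iff_inv_smul_mem, inv_inv, AlgEquiv.smul_def,
      ValuationSubring.mem_comap, ValuationSubring.mem_comap,
      mem_padicPlace_iff, mem_padicPlace_iff, nnnorm_le_one_iff_norm, nnnorm_le_one_iff_norm] at h2
    exact h2
  exact norm_map_eq_of_unitBall q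
    ((padicEmbedding q).toRingHom.comp (algebraMap F (AlgebraicClosure ℚ))) σ.toRingEquiv key x

/-! ### (E3) lifting decomposition-group elements -/

/-- **(E3)** An automorphism of `F ≤ ℚ̄` lying in the decomposition group of the place of `F`
below `padicPlace q` is induced by an element of `Gal(Ω/ℚ_q)`. -/
theorem exists_local_lift (F : IntermediateField ℚ (AlgebraicClosure ℚ)) (σ : F ≃ₐ[ℚ] F)
    (hσ : σ ∈ ((padicPlace q).comap (algebraMap F (AlgebraicClosure ℚ))).decompositionSubgroup ℚ) :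
    ∃ τ : PadicAlgCl q ≃ₐ[ℚ_[q]] PadicAlgCl q,
      ∀ x : F, τ (padicEmbedding q (x : AlgebraicClosure ℚ)) =
        padicEmbedding q ((σ x : F) : AlgebraicClosure ℚ) :=
  exists_local_lift_of_norm q F σ (norm_map_eq_of_mem_decompositionSubgroup q F σ hσ)

/-! ### (E4) the image of the local Galois group is the decomposition group -/

/-- **(E4)** `localGaloisToGlobal q` maps `Gal(Ω/ℚ_q)` onto the decomposition group of
`padicPlace q`. -/
theorem range_localGaloisToGlobal :
    (localGaloisToGlobal q).range = (padicPlace q).decompositionSubgroup ℚ := by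
  apply le_antisymm
  · rintro _ ⟨τ, rfl⟩
    exact localGaloisToGlobal_mem_decompositionSubgroup q τ
  · intro g hg
    let e : (⊤ : IntermediateField ℚ (AlgebraicClosure ℚ)) ≃ₐ[ℚ] AlgebraicClosure ℚ :=
      IntermediateField.topEquiv
    let σ : (⊤ : IntermediateField ℚ (AlgebraicClosure ℚ)) ≃ₐ[ℚ]
        (⊤ : IntermediateField ℚ (AlgebraicClosure ℚ)) := (e.trans g).trans e.symm
    have hσx : ∀ x : (⊤ : IntermediateField ℚ (AlgebraicClosure ℚ)),
        ((σ x : (⊤ : IntermediateField ℚ (AlgebraicClosure ℚ))) : AlgebraicClosure ℚ) =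
          g (x : AlgebraicClosure ℚ) := fun x => rfl
    obtain ⟨τ, hτ⟩ := exists_local_lift_of_norm q ⊤ σ (fun x => by
      rw [hσx]; exact norm_map_eq_of_mem_decompositionSubgroup_top q g hg x)
    refine ⟨τ, ?_⟩
    ext x
    apply padicEmbedding_injective q
    rw [padicEmbedding_localGaloisToGlobal]
    have := hτ ⟨x, IntermediateField.mem_top⟩
    rw [hσx] at this
    exact this

/-- **(E4), finite level.** For `F/ℚ` normal, the image of `Gal(Ω/ℚ_q)` in `Gal(F/ℚ)` is the
decomposition group of the place of `F` below `padicPlace q`. -/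
theorem range_restrict (F : IntermediateField ℚ (AlgebraicClosure ℚ)) [Normal ℚ F] :
    ((AlgEquiv.restrictNormalHom (F := ℚ) (K₁ := AlgebraicClosure ℚ) F).comp
        (localGaloisToGlobal q)).range =
      ((padicPlace q).comap (algebraMap F (AlgebraicClosure ℚ))).decompositionSubgroup ℚ := by
  have hcomm : ∀ (τ : PadicAlgCl q ≃ₐ[ℚ_[q]] PadicAlgCl q) (x : F),
      padicEmbedding q ((AlgEquiv.restrictNormalHom (F := ℚ) (K₁ := AlgebraicClosure ℚ) F
        (localGaloisToGlobal q τ) x : F) : AlgebraicClosure ℚ) =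
        τ (padicEmbedding q (x : AlgebraicClosure ℚ)) := by
    intro τ x
    have h1 : ((AlgEquiv.restrictNormalHom (F := ℚ) (K₁ := AlgebraicClosure ℚ) F
        (localGaloisToGlobal q τ) x : F) : AlgebraicClosure ℚ) =
        localGaloisToGlobal q τ (x : AlgebraicClosure ℚ) :=
      AlgEquiv.restrictNormal_commutes (localGaloisToGlobal q τ) F x
    rw [h1, padicEmbedding_localGaloisToGlobal]
  apply le_antisymm
  · rintro _ ⟨τ, rfl⟩
    rw [MonoidHom.comp_apply, ValuationSubring.decompositionSubgroup, MulAction.mem_stabilizer_iff]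
    apply SetLike.ext
    intro x
    rw [ValuationSubring.mem_pointwise_smul_iff_inv_smul_mem, ← map_inv, ← map_inv,
      AlgEquiv.smul_def, ValuationSubring.mem_comap, ValuationSubring.mem_comap,
      mem_padicPlace_iff, mem_padicPlace_iff]
    have := hcomm τ⁻¹ x
    rw [show algebraMap F (AlgebraicClosure ℚ) ((AlgEquiv.restrictNormalHom F)
      ((localGaloisToGlobal q) τ⁻¹) x) = (((AlgEquiv.restrictNormalHom F)
      ((localGaloisToGlobal q) τ⁻¹) x : F) : AlgebraicClosure ℚ) from rfl, this,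
      nnnorm_padicAlgCl_algEquiv]
    rfl
  · intro σ hσ
    obtain ⟨τ, hτ⟩ := exists_local_lift q F σ hσ
    refine ⟨τ, ?_⟩
    rw [MonoidHom.comp_apply]
    ext x
    apply padicEmbedding_injective q
    rw [hcomm, hτ]

end Fermat.Agent.S55.ProfinLoc80
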