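/-
S55 / 10c-PROFIN-LOCAL: the bridge between `ProfinLoc80.Decomp` (field/group half) and
`ProfinLocal26.Local` (cochain half): the named input `Local.LocalDensity q` holds unconditionally,
in the strong form `range = decomposition group`.
No sorry.
-/
import Fermat.Agent.S55.ProfinLoc80.Decomp
import Fermat.Agent.S55.ProfinLocal26.Local

set_option autoImplicit false

noncomputable section

namespace Fermat.Agent.S55.ProfinLoc80.Density

open Fermat.Agent.S55.ProfinLocal26 ExtCitation

/-- the image of the local Galois group at `q` is the whole decomposition group. -/
theorem range_primeLocalToGlobal (q : Nat.Primes) :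
    (primeLocalToGlobal q).range = Local.decomp q := by
  let _ : Fact (q : ℕ).Prime := ⟨q.2⟩
  exact range_localGaloisToGlobal (q : ℕ)

/-- `LocalDensity q` (helper26's named input) holds for every prime. -/
theorem localDensity (q : Nat.Primes) : Local.LocalDensity q :=
  Local.localDensity_of_range_eq q (range_primeLocalToGlobal q)

end Fermat.Agent.S55.ProfinLoc80.Density
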